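import Mathlib

set_option autoImplicit false

open UpperHalfPlane CongruenceSubgroup Filter Topology Function ModularForm
open scoped MatrixGroups Real Manifold

namespace Fermat.Agent.S21_helper52

local notation "𝕢" => Function.Periodic.qParam

/-- The translate `w ↦ F (δ • w)` of a function on the upper half plane. -/
noncomputable def trans (F : ℍ → ℂ) (δ : SL(2, ℤ)) : ℍ → ℂ := fun w => F (δ • w)

theorem trans_apply (F : ℍ → ℂ) (δ : SL(2, ℤ)) (w : ℍ) : trans F δ w = F (δ • w) := rfl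

theorem trans_eq_slash (F : ℍ → ℂ) (δ : SL(2, ℤ)) : trans F δ = F ∣[(0 : ℤ)] δ := by
  funext w
  simp [trans, SL_slash_apply]

theorem mdiff_trans {F : ℍ → ℂ} (hF : MDiff F) (δ : SL(2, ℤ)) : MDiff (trans F δ) := by
  rw [trans_eq_slash]
  exact hF.slash 0 _

theorem tendsto_T_zpow_smul (n : ℤ) :
    Tendsto (fun w : ℍ => (ModularGroup.T ^ n) • w) atImInfty atImInfty := by
  refine tendsto_comap_iff.mpr ?_
  have : (UpperHalfPlane.im ∘ fun w : ℍ => (ModularGroup.T ^ n) • w) = UpperHalfPlane.im := by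
    funext w
    exact ModularGroup.im_T_zpow_smul w n
  rw [this]
  exact tendsto_comap

theorem conj_T_pow_mem_Gamma0 (N : ℕ) (δ : SL(2, ℤ)) :
    δ * ModularGroup.T ^ (N : ℤ) * δ⁻¹ ∈ Gamma0 N := by
  have h1 : ModularGroup.T ^ (N : ℤ) ∈ CongruenceSubgroup.Gamma N := by
    simpa using ModularGroup_T_pow_mem_Gamma (N : ℤ) (N : ℤ) dvd_rfl
  have h2 : δ * ModularGroup.T ^ (N : ℤ) * δ⁻¹ ∈ CongruenceSubgroup.Gamma N :=
    (Gamma_normal N).conj_mem _ h1 δ
  rw [Gamma_mem] at h2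
  rw [Gamma0_mem]
  exact h2.2.2.1

/-- Parabolic periods vanish because of the cusp limits. -/
theorem trans_T_pow_smul (N : ℕ) {F : ℍ → ℂ}
    (hper : ∀ γ : SL(2, ℤ), γ ∈ Gamma0 N → ∃ c : ℂ, ∀ z : ℍ, F (γ • z) - F z = c)
    (hcusp : ∀ δ : SL(2, ℤ), ∃ L : ℂ, Tendsto (trans F δ) atImInfty (𝓝 L))
    (δ : SL(2, ℤ)) (w : ℍ) :
    trans F δ ((ModularGroup.T ^ (N : ℤ)) • w) = trans F δ w := by
  obtain ⟨c, hc⟩ := hper _ (conj_T_pow_mem_Gamma0 N δ)
  obtain ⟨L, hL⟩ := hcusp δ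
  have hkey : ∀ u : ℍ, trans F δ ((ModularGroup.T ^ (N : ℤ)) • u) - trans F δ u = c := by
    intro u
    have := hc (δ • u)
    rw [← this, trans_apply, trans_apply]
    congr 2
    rw [← mul_smul, ← mul_smul]
    congr 1
    group
  have h1 : Tendsto (fun u : ℍ => trans F δ ((ModularGroup.T ^ (N : ℤ)) • u) - trans F δ u)
      atImInfty (𝓝 (L - L)) :=
    (hL.comp (tendsto_T_zpow_smul N)).sub hL
  have h2 : Tendsto (fun u : ℍ => trans F δ ((ModularGroup.T ^ (N : ℤ)) • u) - trans F δ u)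
      atImInfty (𝓝 c) := by
    simp_rw [hkey]
    exact tendsto_const_nhds
  have hc0 : c = 0 := by
    have := tendsto_nhds_unique h2 h1
    simpa using this
  have := hkey w
  rw [hc0, sub_eq_zero] at this
  exact this

theorem periodic_trans (N : ℕ) {F : ℍ → ℂ}
    (hper : ∀ γ : SL(2, ℤ), γ ∈ Gamma0 N → ∃ c : ℂ, ∀ z : ℍ, F (γ • z) - F z = c)
    (hcusp : ∀ δ : SL(2, ℤ), ∃ L : ℂ, Tendsto (trans F δ) atImInfty (𝓝 L))
    (δ : SL(2, ℤ)) :
    Periodic (trans F δ ∘ ofComplex) ((N : ℝ) : ℂ) := by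
  intro w
  by_cases hw : 0 < Complex.im w
  · have hw' : 0 < Complex.im (w + ((N : ℝ) : ℂ)) := by simpa using hw
    simp only [comp_apply, ofComplex_apply_of_im_pos hw', ofComplex_apply_of_im_pos hw]
    rw [← trans_T_pow_smul N hper hcusp δ ⟨w, hw⟩]
    congr 1
    ext
    rw [ModularGroup.coe_T_zpow_smul_eq]
    simp
  · have hw1 : Complex.im w ≤ 0 := not_lt.mp hw
    have hw' : Complex.im (w + ((N : ℝ) : ℂ)) ≤ 0 := by simpa using hw1
    rw [comp_apply, comp_apply, ofComplex_apply_of_im_nonpos hw',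
      ofComplex_apply_of_im_nonpos hw1]

theorem isBoundedAtImInfty_of_tendsto {f : ℍ → ℂ} {L : ℂ} (h : Tendsto f atImInfty (𝓝 L)) :
    IsBoundedAtImInfty f :=
  h.isBigO_one ℝ

/-- Right coset decomposition for a finite index subgroup. -/
theorem exists_coset_rep (Γ : Subgroup SL(2, ℤ)) (g : SL(2, ℤ)) :
    ∃ q : SL(2, ℤ) ⧸ Γ, ∃ γ : SL(2, ℤ), γ ∈ Γ ∧ g = γ * (Quotient.out q)⁻¹ := by
  refine ⟨QuotientGroup.mk g⁻¹, g * Quotient.out (QuotientGroup.mk g⁻¹ : SL(2, ℤ) ⧸ Γ), ?_, ?_⟩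
  · have h : (QuotientGroup.mk (Quotient.out (QuotientGroup.mk g⁻¹ : SL(2, ℤ) ⧸ Γ)) :
        SL(2, ℤ) ⧸ Γ) = QuotientGroup.mk g⁻¹ := QuotientGroup.out_eq' _
    rw [QuotientGroup.eq] at h
    have h2 := Γ.inv_mem h
    simpa [mul_inv_rev] using h2
  · group

theorem norm_qParam_le_of_half_le_im {N : ℕ} (hN : 0 < N) {w : ℍ} (hw : 1 / 2 ≤ w.im) :
    ‖𝕢 (N : ℝ) (w : ℂ)‖ ≤ Real.exp (-π / N) := by
  rw [Function.Periodic.norm_qParam]
  apply Real.exp_le_exp.mpr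
  have hN' : (0 : ℝ) < N := by exact_mod_cast hN
  rw [div_le_div_iff_of_pos_right hN']
  have : (w : ℂ).im = w.im := rfl
  rw [this]
  nlinarith [Real.pi_pos]

/-- **Maximum principle on `Γ₀(N) \ ℍ*`**: a holomorphic function on `ℍ` whose `Γ₀(N)`-periods are
purely imaginary constants and which has limits at all cusps is constant. -/
theorem const_of_imaginary_periods (N : ℕ) [NeZero N] {F : ℍ → ℂ} (hF : MDiff F)
    (hper : ∀ γ : SL(2, ℤ), γ ∈ Gamma0 N → ∃ c : ℂ, c.re = 0 ∧ ∀ z : ℍ, F (γ • z) - F z = c)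
    (hcusp : ∀ δ : SL(2, ℤ), ∃ L : ℂ, Tendsto (fun w : ℍ => F (δ • w)) atImInfty (𝓝 L)) :
    ∃ c : ℂ, ∀ z : ℍ, F z = c := by
  classical
  have hNpos : 0 < N := Nat.pos_of_ne_zero (NeZero.ne N)
  have hN : (0 : ℝ) < N := by exact_mod_cast hNpos
  have hper' : ∀ γ : SL(2, ℤ), γ ∈ Gamma0 N → ∃ c : ℂ, ∀ z : ℍ, F (γ • z) - F z = c :=
    fun γ hγ => let ⟨c, _, hc⟩ := hper γ hγ; ⟨c, hc⟩
  have hcusp' : ∀ δ : SL(2, ℤ), ∃ L : ℂ, Tendsto (trans F δ) atImInfty (𝓝 L) := hcusp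
  -- real parts are invariant
  have hre : ∀ γ : SL(2, ℤ), γ ∈ Gamma0 N → ∀ z : ℍ, (F (γ • z)).re = (F z).re := by
    intro γ hγ z
    obtain ⟨c, hc0, hc⟩ := hper γ hγ
    have := congrArg Complex.re (hc z)
    rw [Complex.sub_re, hc0] at this
    linarith
  -- the cusp functions
  set Ψ : SL(2, ℤ) → ℂ → ℂ := fun δ => UpperHalfPlane.cuspFunction (N : ℝ) (trans F δ) with hΨ
  have hperiodic : ∀ δ, Periodic (trans F δ ∘ ofComplex) ((N : ℝ) : ℂ) :=
    fun δ => periodic_trans N hper' hcusp' δ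
  have hΨdiff : ∀ δ, DifferentiableOn ℂ (Ψ δ) (Metric.ball 0 1) := by
    intro δ
    obtain ⟨L, hL⟩ := hcusp' δ
    exact differentiableOn_cuspFunction_ball hN (hperiodic δ) (mdiff_trans hF δ)
      (isBoundedAtImInfty_of_tendsto hL)
  have hΨeq : ∀ δ (τ : ℍ), Ψ δ (𝕢 (N : ℝ) (τ : ℂ)) = F (δ • τ) := by
    intro δ τ
    exact eq_cuspFunction τ hN.ne' (hperiodic δ)
  set E : SL(2, ℤ) → ℂ → ℂ := fun δ q => Complex.exp (Ψ δ q) with hE
  have hEdiff : ∀ δ, DifferentiableOn ℂ (E δ) (Metric.ball 0 1) :=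
    fun δ => (hΨdiff δ).cexp
  have hEnorm : ∀ δ (τ : ℍ), ‖E δ (𝕢 (N : ℝ) (τ : ℂ))‖ = Real.exp (F (δ • τ)).re := by
    intro δ τ
    simp only [hE, Complex.norm_exp, hΨeq]
  -- the radius
  set r : ℝ := Real.exp (-π / N) with hr
  have hr0 : 0 ≤ r := (Real.exp_pos _).le
  have hr1 : r < 1 := by
    rw [hr, Real.exp_lt_one_iff]
    exact div_neg_of_neg_of_pos (by linarith [Real.pi_pos]) hN
  -- coset representatives
  let Q := SL(2, ℤ) ⧸ Gamma0 N
  have : Finite Q := Subgroup.finite_quotient_of_finiteIndex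
  have : Nonempty Q := ⟨QuotientGroup.mk 1⟩
  let rep : Q → SL(2, ℤ) := fun q => (Quotient.out q)⁻¹
  -- maxima on the closed ball
  have hmax : ∀ q : Q, ∃ x ∈ Metric.closedBall (0 : ℂ) r,
      ∀ y ∈ Metric.closedBall (0 : ℂ) r, ‖E (rep q) y‖ ≤ ‖E (rep q) x‖ := by
    intro q
    obtain ⟨x, hx, hxmax⟩ := (isCompact_closedBall (0 : ℂ) r).exists_isMaxOn
      (Metric.nonempty_closedBall.mpr hr0)
      (((hEdiff (rep q)).continuousOn.mono (Metric.closedBall_subset_ball hr1)).norm)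
    exact ⟨x, hx, fun y hy => hxmax hy⟩
  choose x hx hxmax using hmax
  obtain ⟨q0, hq0⟩ := Finite.exists_max (fun q : Q => ‖E (rep q) (x q)‖)
  -- global bound
  have hglobal : ∀ z : ℍ, Real.exp (F z).re ≤ ‖E (rep q0) (x q0)‖ := by
    intro z
    obtain ⟨g, hg⟩ := ModularGroup.exists_one_half_le_im_smul z
    obtain ⟨q, γ, hγ, hgq⟩ := exists_coset_rep (Gamma0 N) g⁻¹
    have hz : z = γ • (rep q • (g • z)) := by
      rw [← mul_smul, ← mul_smul]
      show z = (γ * (Quotient.out q)⁻¹ * g) • z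
      rw [← hgq]
      simp
    have h1 : (F z).re = (F (rep q • (g • z))).re := by
      conv_lhs => rw [hz]
      exact hre γ hγ _
    rw [h1, ← hEnorm]
    refine le_trans (hxmax q _ ?_) (hq0 q)
    rw [mem_closedBall_zero_iff]
    exact norm_qParam_le_of_half_le_im hNpos hg
  -- the maximum is attained in the interior of the unit ball
  have hxball : x q0 ∈ Metric.ball (0 : ℂ) 1 := Metric.closedBall_subset_ball hr1 (hx q0)
  have hismax : IsMaxOn (norm ∘ E (rep q0)) (Metric.ball 0 1) (x q0) := by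
    intro y hy
    show ‖E (rep q0) y‖ ≤ ‖E (rep q0) (x q0)‖
    rcases eq_or_ne y 0 with rfl | hy0
    · exact hxmax q0 0 (by simpa using hr0)
    · have hy1 : ‖y‖ < 1 := mem_ball_zero_iff.mp hy
      have him : 0 < (Function.Periodic.invQParam (N : ℝ) y).im :=
        Function.Periodic.im_invQParam_pos_of_norm_lt_one hN hy1 hy0
      have := hEnorm (rep q0) ⟨_, him⟩
      rw [UpperHalfPlane.coe_mk, Function.Periodic.qParam_right_inv hN.ne' hy0] at this
      rw [this]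
      exact hglobal _
  have hconst := Complex.eq_const_of_exists_max (hEdiff (rep q0)) hxball hismax
  -- hence `Ψ (rep q0)` has zero derivative, so it is constant
  have hderiv : ∀ y ∈ Metric.ball (0 : ℂ) 1, deriv (Ψ (rep q0)) y = 0 := by
    intro y hy
    have hdΨ : DifferentiableAt ℂ (Ψ (rep q0)) y :=
      (hΨdiff (rep q0)).differentiableAt (Metric.isOpen_ball.mem_nhds hy)
    have h1 : HasDerivAt (E (rep q0)) (Complex.exp (Ψ (rep q0) y) * deriv (Ψ (rep q0)) y) y :=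
      hdΨ.hasDerivAt.cexp
    have h2 : HasDerivAt (E (rep q0)) 0 y := by
      have : E (rep q0) =ᶠ[𝓝 y] fun _ => E (rep q0) (x q0) := by
        filter_upwards [Metric.isOpen_ball.mem_nhds hy] with u hu using hconst hu
      exact (hasDerivAt_const y _).congr_of_eventuallyEq this
    have h3 := h1.unique h2
    exact (mul_eq_zero.mp h3).resolve_left (Complex.exp_ne_zero _)
  have hΨconst : ∀ y ∈ Metric.ball (0 : ℂ) 1, Ψ (rep q0) y = Ψ (rep q0) 0 := by
    intro y hy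
    exact Metric.isOpen_ball.is_const_of_deriv_eq_zero (convex_ball (0 : ℂ) 1).isPreconnected
      (hΨdiff (rep q0)) hderiv hy (Metric.mem_ball_self one_pos)
  refine ⟨Ψ (rep q0) 0, fun z => ?_⟩
  have hz : z = rep q0 • ((rep q0)⁻¹ • z) := by simp
  rw [hz, ← hΨeq]
  apply hΨconst
  rw [mem_ball_zero_iff]
  exact Function.Periodic.norm_qParam_lt_one hN (UpperHalfPlane.im_pos _)

end Fermat.Agent.S21_helper52
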