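import Mathlib
import Fermat.Prelude.Def_ModularCurve_PeriodHomPair
import Fermat.Agent.S21_helper52.MaxPrinciple

set_option autoImplicit false

open UpperHalfPlane CongruenceSubgroup Filter Topology Function ModularForm
open scoped MatrixGroups Real Manifold ComplexConjugate
open ModularCurve ModularCurve.Period

namespace Fermat.Agent.S21_helper52

/-- `J γ J` is the sign-twisted matrix `jConjSL γ`. -/
theorem coe_jConjSL (γ : SL(2, ℤ)) :
    ((jConjSL γ : SL(2, ℤ)) : GL (Fin 2) ℝ) = J * (γ : GL (Fin 2) ℝ) * J := by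
  ext i j
  fin_cases i <;> fin_cases j <;>
    simp [jConjMat, Matrix.mul_apply, Fin.sum_univ_two, Matrix.vecMul, dotProduct]

theorem J_mul_J : J * J = 1 := by
  have := J_sq
  rwa [sq] at this

theorem J_smul_J_smul (z : ℍ) : J • (J • z) = z := by
  rw [← mul_smul, J_mul_J, one_smul]

/-- `z ↦ -conj z` intertwines `γ` and `jConjSL γ`. -/
theorem jConjSL_smul_J_smul (γ : SL(2, ℤ)) (z : ℍ) :
    (jConjSL γ) • (J • z) = J • (γ • z) := by
  rw [ModularGroup.sl_moeb, ModularGroup.sl_moeb]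
  have := coe_jConjSL γ
  rw [this, mul_smul, mul_smul, J_smul_J_smul]

theorem J_smul_smul (γ : SL(2, ℤ)) (z : ℍ) :
    J • (γ • z) = (jConjSL γ) • (J • z) := (jConjSL_smul_J_smul γ z).symm

theorem im_J_smul (z : ℍ) : (J • z).im = z.im := by
  have h := congrArg Complex.im (coe_J_smul z)
  simpa using h

theorem tendsto_J_smul : Tendsto (fun w : ℍ => J • w) atImInfty atImInfty := by
  refine tendsto_comap_iff.mpr ?_
  have : (UpperHalfPlane.im ∘ fun w : ℍ => J • w) = UpperHalfPlane.im := by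
    funext w
    exact im_J_smul w
  rw [this]
  exact tendsto_comap

/-- The reflected function `τ ↦ conj (F (-conj τ))`. -/
noncomputable def refl (F : ℍ → ℂ) : ℍ → ℂ := fun τ => conj (F (J • τ))

theorem refl_apply (F : ℍ → ℂ) (τ : ℍ) : refl F τ = conj (F (J • τ)) := rfl

theorem refl_eq_slash (F : ℍ → ℂ) : refl F = F ∣[(0 : ℤ)] J := by
  funext τ
  have h : ¬ ((1 : ℝ) < 0) := by norm_num
  simp [refl, ModularForm.slash_def, σ, h]

theorem mdiff_refl {F : ℍ → ℂ} (hF : MDiff F) : MDiff (refl F) := by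
  rw [refl_eq_slash]
  exact hF.slash 0 J

theorem mdiff_of_hasDerivAt {F f : ℍ → ℂ}
    (h : ∀ τ : ℍ, HasDerivAt (F ∘ ofComplex) (f τ) (τ : ℂ)) : MDiff F :=
  fun τ => mdifferentiableAt_iff.mpr (h τ).differentiableAt

theorem eq_zero_of_const {F f : ℍ → ℂ}
    (h : ∀ τ : ℍ, HasDerivAt (F ∘ ofComplex) (f τ) (τ : ℂ)) {c : ℂ} (hc : ∀ z, F z = c) (τ : ℍ) :
    f τ = 0 := by
  have h2 : HasDerivAt (F ∘ ofComplex) 0 (τ : ℂ) := by
    have : (F ∘ ofComplex) = fun _ => c := by
      funext z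
      exact hc _
    rw [this]
    exact hasDerivAt_const _ _
  exact (h τ).unique h2

/-- **Injectivity of the Eichler–Shimura period pairing** (given existence of equivariant primitives
and linearity of the period map). -/
theorem periodHomPair_injective (N : ℕ) [NeZero N]
    (hE : ∀ f : CuspForm (Gamma0 N) 2, ∃ F : ℍ → ℂ, HasEquivariantPrimitive N f F)
    (hL : ExistsPeriodMapLinear N) : Function.Injective (periodHomPair N) := by
  obtain ⟨pml, hpml, hdef⟩ := periodHomPair_def N hL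
  rw [injective_iff_map_eq_zero]
  rintro ⟨f, g⟩ hfg
  obtain ⟨F₁, hF₁⟩ := hE f
  obtain ⟨G₁, hG₁⟩ := hE g
  obtain ⟨F, hF, hPf⟩ := periodMap_def N f hF₁
  obtain ⟨G, hG, hPg⟩ := periodMap_def N g hG₁
  have pf : IsEquivariantPrimitive (Gamma0 N) F := hF.2.2.1
  have pg : IsEquivariantPrimitive (Gamma0 N) G := hG.2.2.1
  -- the key relation on periods
  have hrel : ∀ γ : Gamma0 N, pf.period γ + pf.period (jConjGamma0 N γ)
      + (pg.period γ - pg.period (jConjGamma0 N γ)) = 0 := by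
    intro γ
    have := congrArg (fun ψ : Additive (Gamma0 N) →+ ℂ => ψ (Additive.ofMul γ)) hfg
    simpa only [hdef, LinearMap.coprod_apply, LinearMap.comp_apply, LinearMap.add_apply,
      LinearMap.sub_apply, LinearMap.id_apply, AddMonoidHom.add_apply, AddMonoidHom.sub_apply,
      charInvolution_apply, hpml, hPf, hPg, IsEquivariantPrimitive.periodHom_apply,
      AddMonoidHom.zero_apply, toMul_ofMul] using this
  have hFd : MDiff F := mdiff_of_hasDerivAt hF.1
  have hGd : MDiff G := mdiff_of_hasDerivAt hG.1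
  set P : ℍ → ℂ := F + G with hP
  set Qm : ℍ → ℂ := F - G with hQm
  set Qs : ℍ → ℂ := refl Qm with hQs
  have hPd : MDiff P := hFd.add hGd
  have hQsd : MDiff Qs := mdiff_refl (hFd.sub hGd)
  -- periods of P and Qs
  have hPper : ∀ (γ : Gamma0 N) (z : ℍ),
      P ((γ : SL(2, ℤ)) • z) - P z = pf.period γ + pg.period γ := by
    intro γ z
    have h1 := pf.sub_eq_period γ z
    have h2 := pg.sub_eq_period γ z
    simp only [hP, Pi.add_apply]
    linear_combination h1 + h2
  have hQsper : ∀ (γ : Gamma0 N) (z : ℍ), Qs ((γ : SL(2, ℤ)) • z) - Qs z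
      = conj (pf.period (jConjGamma0 N γ) - pg.period (jConjGamma0 N γ)) := by
    intro γ z
    have h1 := pf.sub_eq_period (jConjGamma0 N γ) (J • z)
    have h2 := pg.sub_eq_period (jConjGamma0 N γ) (J • z)
    rw [jConjGamma0_coe, jConjSL_smul_J_smul] at h1 h2
    simp only [hQs, refl_apply, hQm, Pi.sub_apply]
    rw [← map_sub, ← h1, ← h2]
    congr 1
    ring
  -- cusp limits
  have hPcusp : ∀ δ : SL(2, ℤ), ∃ L : ℂ, Tendsto (fun w : ℍ => P (δ • w)) atImInfty (𝓝 L) := by
    intro δ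
    obtain ⟨L1, h1⟩ := hF.2.2.2 δ
    obtain ⟨L2, h2⟩ := hG.2.2.2 δ
    exact ⟨L1 + L2, h1.add h2⟩
  have hQscusp : ∀ δ : SL(2, ℤ), ∃ L : ℂ, Tendsto (fun w : ℍ => Qs (δ • w)) atImInfty (𝓝 L) := by
    intro δ
    obtain ⟨L1, h1⟩ := hF.2.2.2 (jConjSL δ)
    obtain ⟨L2, h2⟩ := hG.2.2.2 (jConjSL δ)
    refine ⟨conj (L1 - L2), ?_⟩
    have h3 := ((h1.sub h2).comp tendsto_J_smul)
    have h4 := (Complex.continuous_conj.tendsto (L1 - L2)).comp h3
    refine h4.congr (fun w => ?_)
    simp only [comp_apply, hQs, refl_apply, hQm, Pi.sub_apply, J_smul_smul]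
  -- first function: P + Qs
  have hconst1 : ∃ c : ℂ, ∀ z : ℍ, (P + Qs) z = c := by
    refine const_of_imaginary_periods N (hPd.add hQsd) ?_ ?_
    · intro γ hγ
      refine ⟨pf.period ⟨γ, hγ⟩ + pg.period ⟨γ, hγ⟩
        + conj (pf.period (jConjGamma0 N ⟨γ, hγ⟩) - pg.period (jConjGamma0 N ⟨γ, hγ⟩)), ?_, ?_⟩
      · have h := hrel ⟨γ, hγ⟩
        have h' : pf.period ⟨γ, hγ⟩ + pg.period ⟨γ, hγ⟩
            = -(pf.period (jConjGamma0 N ⟨γ, hγ⟩) - pg.period (jConjGamma0 N ⟨γ, hγ⟩)) := by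
          linear_combination h
        rw [h']
        simp
      · intro z
        have h1 := hPper ⟨γ, hγ⟩ z
        have h2 := hQsper ⟨γ, hγ⟩ z
        simp only [Pi.add_apply]
        simp only [] at h1 h2
        linear_combination h1 + h2
    · intro δ
      obtain ⟨L1, h1⟩ := hPcusp δ
      obtain ⟨L2, h2⟩ := hQscusp δ
      exact ⟨L1 + L2, h1.add h2⟩
  -- second function: I * (P - Qs)
  have hconst2 : ∃ c : ℂ, ∀ z : ℍ, (fun z => Complex.I * (P z - Qs z)) z = c := by
    refine const_of_imaginary_periods N ?_ ?_ ?_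
    · exact (mdifferentiable_const (c := Complex.I)).mul (hPd.sub hQsd)
    · intro γ hγ
      refine ⟨Complex.I * (pf.period ⟨γ, hγ⟩ + pg.period ⟨γ, hγ⟩
        - conj (pf.period (jConjGamma0 N ⟨γ, hγ⟩) - pg.period (jConjGamma0 N ⟨γ, hγ⟩))), ?_, ?_⟩
      · have h := hrel ⟨γ, hγ⟩
        have h' : pf.period ⟨γ, hγ⟩ + pg.period ⟨γ, hγ⟩
            = -(pf.period (jConjGamma0 N ⟨γ, hγ⟩) - pg.period (jConjGamma0 N ⟨γ, hγ⟩)) := by
          linear_combination h
        rw [h']
        simp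
        ring
      · intro z
        have h1 := hPper ⟨γ, hγ⟩ z
        have h2 := hQsper ⟨γ, hγ⟩ z
        simp only [] at h1 h2 ⊢
        linear_combination Complex.I * h1 - Complex.I * h2
    · intro δ
      obtain ⟨L1, h1⟩ := hPcusp δ
      obtain ⟨L2, h2⟩ := hQscusp δ
      exact ⟨Complex.I * (L1 - L2), (h1.sub h2).const_mul Complex.I⟩
  obtain ⟨c1, hc1⟩ := hconst1
  obtain ⟨c2, hc2⟩ := hconst2
  -- P and Qs are constant
  have hPc : ∀ z, P z = (c1 - Complex.I * c2) / 2 := by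
    intro z
    have h1 := hc1 z
    have h2 := hc2 z
    simp only [Pi.add_apply] at h1
    simp only [] at h2
    rw [← h1, ← h2]
    linear_combination ((1 : ℂ) / 2 * (P z - Qs z)) * Complex.I_mul_I
  have hQsc : ∀ z, Qs z = (c1 + Complex.I * c2) / 2 := by
    intro z
    have h1 := hc1 z
    have h2 := hc2 z
    simp only [Pi.add_apply] at h1
    simp only [] at h2
    rw [← h1, ← h2]
    linear_combination (-(1 : ℂ) / 2 * (P z - Qs z)) * Complex.I_mul_I
  have hQmc : ∀ z, Qm z = conj ((c1 + Complex.I * c2) / 2) := by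
    intro z
    have := hQsc (J • z)
    rw [hQs, refl_apply, J_smul_J_smul] at this
    rw [← this, Complex.conj_conj]
  have hFc : ∀ z, F z = ((c1 - Complex.I * c2) / 2 + conj ((c1 + Complex.I * c2) / 2)) / 2 := by
    intro z
    have h1 := hPc z
    have h2 := hQmc z
    simp only [hP, hQm, Pi.add_apply, Pi.sub_apply] at h1 h2
    rw [← h1, ← h2]
    ring
  have hGc : ∀ z, G z = ((c1 - Complex.I * c2) / 2 - conj ((c1 + Complex.I * c2) / 2)) / 2 := by
    intro z
    have h1 := hPc z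
    have h2 := hQmc z
    simp only [hP, hQm, Pi.add_apply, Pi.sub_apply] at h1 h2
    rw [← h1, ← h2]
    ring
  have hf0 : f = 0 := by
    ext τ
    exact eq_zero_of_const hF.1 hFc τ
  have hg0 : g = 0 := by
    ext τ
    exact eq_zero_of_const hG.1 hGc τ
  rw [hf0, hg0]
  rfl

end Fermat.Agent.S21_helper52
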